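import Mathlib

/-!
# S24, component B2: a group-theoretic lemma on orbits of a cyclic group (aux file for
`Ana/Cusp.lean`).
-/

set_option autoImplicit false

noncomputable section

namespace Fermat.Agent.S24

/-- If the orbit of `x` under the cyclic group `⟨g⟩` has `h` elements then `g ^ h • x = x`.
(The orbit is written as the equivalence class of `x` for the orbit relation, the form in which
it is used.) -/
theorem pow_card_orbitRel_smul {G X : Type*} [Group G] [MulAction G X] [Finite X] (g : G)
    (x : X) :
    g ^ Nat.card {x' : X // (MulAction.orbitRel (Subgroup.zpowers g) X) x x'} • x = x := by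
  -- the equivalence class of `x` is the orbit of `x`, of cardinality the index of the stabilizer
  have hcard : Nat.card {x' : X // (MulAction.orbitRel (Subgroup.zpowers g) X) x x'}
      = (MulAction.stabilizer (Subgroup.zpowers g) x).index := by
    rw [MulAction.index_stabilizer, ← Nat.card_coe_set_eq]
    refine Nat.card_congr (Equiv.subtypeEquivRight fun x' => ?_)
    rw [MulAction.orbitRel_apply]
    exact MulAction.mem_orbit_symm
  rw [hcard]
  -- the cyclic group is commutative, so the stabilizer is normal and contains all index-th powers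
  have hmem := Subgroup.pow_index_mem (MulAction.stabilizer (Subgroup.zpowers g) x)
    (⟨g, Subgroup.mem_zpowers g⟩ : Subgroup.zpowers g)
  rw [MulAction.mem_stabilizer_iff] at hmem
  have h2 : ((⟨g, Subgroup.mem_zpowers g⟩ : Subgroup.zpowers g)
      ^ (MulAction.stabilizer (Subgroup.zpowers g) x).index) • x
      = g ^ (MulAction.stabilizer (Subgroup.zpowers g) x).index • x := by
    rw [Subgroup.smul_def]
    rfl
  rw [← h2]
  exact hmem

/-- Unfolding the orbit relation of `⟨g⟩`. -/
theorem exists_zpow_smul_of_orbitRel {G X : Type*} [Group G] [MulAction G X] (g : G)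
    (x x' : X) (h : (MulAction.orbitRel (Subgroup.zpowers g) X) x x') :
    ∃ k : ℤ, x = g ^ k • x' := by
  rw [MulAction.orbitRel_apply] at h
  obtain ⟨⟨a, ha⟩, rfl⟩ := h
  obtain ⟨k, rfl⟩ := Subgroup.mem_zpowers_iff.mp ha
  exact ⟨k, rfl⟩

end Fermat.Agent.S24
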