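import Fermat.Agent.S24.Ana.Degree.CuspExp

/-!
# S24, component B2: behaviour of the cusp expansions under `g ↦ T^k g` (aux file for
`Ana/Cusp.lean`).
-/

set_option autoImplicit false

noncomputable section

namespace Fermat.Agent.S24

open AlgebraicCurve ModularCurve IntermediateField UpperHalfPlane
open scoped MatrixGroups Manifold

/-- Replacing `g` by `T^k g` replaces `z` by `z - k`, i.e. `t` by `e^{-2πik/N} t`. -/
theorem cuspExpR_T_zpow_mul (N : ℕ) [NeZero N] (k : ℤ) (g : SL(2, ℤ)) (a : coordRing N)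
    (n : ℤ) :
    (cuspExpR N (ModularGroup.T ^ k * g) a).coeff n =
      Complex.exp (2 * Real.pi * Complex.I * ((-k : ℤ) : ℂ) * (n : ℂ) / (N : ℂ))
        * (cuspExpR N g a).coeff n := by
  obtain ⟨G', hG', hcoeff⟩ := HasTExp.vadd (cuspExpR_spec N g a) (-k)
  have hfun : (fun z => conjFun N g a (ModularGroup.T ^ (-k) • z))
      = conjFun N (ModularGroup.T ^ k * g) a := by
    funext z
    rw [conjFun_mul_left, zpow_neg]
  rw [hfun] at hG'
  rw [cuspExpR_eq N _ a hG', hcoeff]

namespace OrbitAux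

/-- Two Laurent series with the same vanishing pattern of coefficients have the same order. -/
theorem order_eq_of_coeff_eq_zero_iff {x y : LaurentSeries ℂ}
    (h : ∀ n : ℤ, x.coeff n = 0 ↔ y.coeff n = 0) : x.order = y.order := by
  by_cases hx : x = 0
  · have hy : y = 0 := by
      ext n
      rw [HahnSeries.coeff_zero]
      exact (h n).1 (by rw [hx, HahnSeries.coeff_zero])
    rw [hx, hy]
  · have hy : y ≠ 0 := by
      intro hy
      apply hx
      ext n
      rw [HahnSeries.coeff_zero]
      exact (h n).2 (by rw [hy, HahnSeries.coeff_zero])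
    apply le_antisymm
    · apply HahnSeries.order_le_of_coeff_ne_zero
      intro h0
      exact hy (HahnSeries.coeff_order_eq_zero.1 ((h _).1 h0))
    · apply HahnSeries.order_le_of_coeff_ne_zero
      intro h0
      exact hx (HahnSeries.coeff_order_eq_zero.1 ((h _).2 h0))

/-- The order of a quotient of nonzero Laurent series. -/
theorem order_div {x y : LaurentSeries ℂ} (hx : x ≠ 0) (hy : y ≠ 0) :
    (x / y).order = x.order - y.order := by
  have h := HahnSeries.order_mul (div_ne_zero hx hy) hy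
  rw [div_mul_cancel₀ x hy] at h
  rw [h, add_sub_cancel_right]

/-- On the coordinate ring, the order of the cusp expansion is constant along the orbits of
`⟨T⟩`. -/
theorem order_cuspExpR_T_zpow_mul (N : ℕ) [NeZero N] (k : ℤ) (g : SL(2, ℤ)) (a : coordRing N) :
    (cuspExpR N (ModularGroup.T ^ k * g) a).order = (cuspExpR N g a).order := by
  apply order_eq_of_coeff_eq_zero_iff
  intro n
  rw [cuspExpR_T_zpow_mul, mul_eq_zero]
  constructor
  · rintro (h | h)
    · exact absurd h (Complex.exp_ne_zero _)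
    · exact h
  · exact fun h => Or.inr h

/-- The cusp expansion of a nonzero element of the coordinate ring is nonzero. -/
theorem cuspExpR_ne_zero (N : ℕ) [NeZero N] (g : SL(2, ℤ)) {a : coordRing N} (ha : a ≠ 0) :
    cuspExpR N g a ≠ 0 := by
  intro h
  exact ha (cuspExpR_injective N g (h.trans (map_zero _).symm))

/-- The cusp expansion of a quotient of elements of the coordinate ring. -/
theorem cuspExp_div (N : ℕ) [NeZero N] (g : SL(2, ℤ)) (a b : coordRing N) :
    cuspExp N g ((a : FN N) / (b : FN N)) = cuspExpR N g a / cuspExpR N g b := by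
  rw [map_div₀, cuspExp_coe, cuspExp_coe]

/-- The order of the cusp expansion of a quotient of nonzero elements of the coordinate ring. -/
theorem order_cuspExp_div (N : ℕ) [NeZero N] (g : SL(2, ℤ)) {a b : coordRing N}
    (ha : a ≠ 0) (hb : b ≠ 0) :
    (cuspExp N g ((a : FN N) / (b : FN N))).order
      = (cuspExpR N g a).order - (cuspExpR N g b).order := by
  rw [cuspExp_div, order_div (cuspExpR_ne_zero N g ha) (cuspExpR_ne_zero N g hb)]

/-- An element of the coordinate ring which is nonzero in the function field is nonzero. -/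
theorem ne_zero_of_coe_ne_zero (N : ℕ) {b : coordRing N} (hb : (b : FN N) ≠ 0) : b ≠ 0 := by
  intro h
  apply hb
  rw [h]
  rfl

/-- `exp(2πi·(-h)·n/N) = 1` forces `N ∣ h * n`. -/
theorem dvd_of_exp_eq_one (N : ℕ) [NeZero N] (h n : ℤ)
    (he : Complex.exp (2 * Real.pi * Complex.I * ((-h : ℤ) : ℂ) * (n : ℂ) / (N : ℂ)) = 1) :
    (N : ℤ) ∣ h * n := by
  obtain ⟨m, hm⟩ := Complex.exp_eq_one_iff.1 he
  have hN : (N : ℂ) ≠ 0 := Nat.cast_ne_zero.2 (NeZero.ne N)
  have h2pi : (2 * Real.pi * Complex.I : ℂ) ≠ 0 := Complex.two_pi_I_ne_zero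
  have h1 : ((-h : ℤ) : ℂ) * (n : ℂ) = (m : ℂ) * (N : ℂ) := by
    have h2 : 2 * Real.pi * Complex.I * (((-h : ℤ) : ℂ) * (n : ℂ))
        = 2 * Real.pi * Complex.I * ((m : ℂ) * (N : ℂ)) := by
      rw [div_eq_iff hN] at hm
      rw [← mul_assoc, hm]
      ring
    exact mul_left_cancel₀ h2pi h2
  have h3 : (-h) * n = m * (N : ℤ) := by
    exact_mod_cast h1
  exact ⟨-m, by linear_combination (-1 : ℤ) * h3⟩

/-- If the cusp expansions at `T^h g` and `g` agree, then the order `o` of the cusp expansion at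
`g` of a nonzero element of the coordinate ring satisfies `N ∣ h * o`. -/
theorem dvd_order_cuspExpR (N : ℕ) [NeZero N] (g : SL(2, ℤ)) (h : ℤ)
    (hfix : cuspExp N (ModularGroup.T ^ h * g) = cuspExp N g)
    {a : coordRing N} (ha : a ≠ 0) : (N : ℤ) ∣ h * (cuspExpR N g a).order := by
  have hG : cuspExpR N g a ≠ 0 := cuspExpR_ne_zero N g ha
  have heq : cuspExpR N (ModularGroup.T ^ h * g) a = cuspExpR N g a := by
    rw [← cuspExp_coe, ← cuspExp_coe, hfix]
  have hc := cuspExpR_T_zpow_mul N h g a (cuspExpR N g a).order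
  rw [heq] at hc
  have hne : (cuspExpR N g a).coeff (cuspExpR N g a).order ≠ 0 :=
    fun h0 => hG (HahnSeries.coeff_order_eq_zero.1 h0)
  have he : Complex.exp (2 * Real.pi * Complex.I * ((-h : ℤ) : ℂ)
      * (((cuspExpR N g a).order : ℤ) : ℂ) / (N : ℂ)) = 1 :=
    mul_right_cancel₀ hne (hc.symm.trans (one_mul _).symm)
  exact dvd_of_exp_eq_one N h _ he

end OrbitAux

/-- The order of the cusp expansion is constant along the orbits of `⟨T⟩`. -/
theorem order_cuspExp_T_zpow_mul (N : ℕ) [NeZero N] (k : ℤ) (g : SL(2, ℤ)) (f : FN N) :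
    (cuspExp N (ModularGroup.T ^ k * g) f).order = (cuspExp N g f).order := by
  obtain ⟨a, b, hb, rfl⟩ := exists_div_coordRing N f
  have hb' : b ≠ 0 := OrbitAux.ne_zero_of_coe_ne_zero N hb
  by_cases ha : a = 0
  · have h0 : ((a : FN N) / (b : FN N)) = 0 := by
      rw [ha]
      exact zero_div _
    rw [h0, map_zero, map_zero]
  · rw [OrbitAux.order_cuspExp_div N _ ha hb', OrbitAux.order_cuspExp_div N _ ha hb',
      OrbitAux.order_cuspExpR_T_zpow_mul, OrbitAux.order_cuspExpR_T_zpow_mul]

/-- If `T^h` fixes the coset of `g`, then the cusp expansion at `g` of every `f ≠ 0` has order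
`o` with `N ∣ h * o`. -/
theorem dvd_order_of_T_zpow_fix (N : ℕ) [NeZero N] (g : SL(2, ℤ)) (h : ℤ)
    (hfix : (QuotientGroup.mk (ModularGroup.T ^ h * g) : Cosets N) = QuotientGroup.mk g)
    (f : FN N) (hf : f ≠ 0) :
    (N : ℤ) ∣ h * (cuspExp N g f).order := by
  have hγ : g⁻¹ * (ModularGroup.T ^ h * g) ∈ CongruenceSubgroup.Gamma0 N :=
    QuotientGroup.eq.1 hfix.symm
  have hfix' : cuspExp N (ModularGroup.T ^ h * g) = cuspExp N g := by
    have h1 := cuspExp_mul_right N g _ hγ
    rwa [mul_inv_cancel_left] at h1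
  obtain ⟨a, b, hb, rfl⟩ := exists_div_coordRing N f
  have hb' : b ≠ 0 := OrbitAux.ne_zero_of_coe_ne_zero N hb
  have ha' : a ≠ 0 := by
    intro ha
    apply hf
    rw [ha]
    exact zero_div _
  rw [OrbitAux.order_cuspExp_div N g ha' hb', mul_sub]
  exact dvd_sub (OrbitAux.dvd_order_cuspExpR N g h hfix' ha')
    (OrbitAux.dvd_order_cuspExpR N g h hfix' hb')

end Fermat.Agent.S24
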