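import Fermat.Agent.S24.Ana.Degree.CuspExp

/-!
# S24, component B2: the order function on `ℂ((t))` and the orders of the cusp expansions of
`j` and of constants (aux file for `Ana/Cusp.lean`).
-/

set_option autoImplicit false

noncomputable section

namespace Fermat.Agent.S24

open AlgebraicCurve ModularCurve IntermediateField UpperHalfPlane
open scoped MatrixGroups Manifold

/-- `HahnSeries.order` is an order function on the field `ℂ((t))`. -/
theorem isOrdFn_order : IsOrdFn (HahnSeries.order : LaurentSeries ℂ → ℤ) := by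
  exact
    { map_one := HahnSeries.order_one
      map_mul := fun _ _ ha hb => HahnSeries.order_mul ha hb
      map_add := fun _ _ _ _ hab => HahnSeries.min_order_le_order_add hab }

namespace OrdAux

/-- The `t`-expansion `j(t^N) = t^(-N) + …` has order `-N`. -/
theorem order_jT (N : ℕ) [NeZero N] : (jT N).order = -(N : ℤ) := by
  have h1 : (jT N).coeff (-(N : ℤ)) ≠ 0 := by
    rw [jT_coeff_neg]
    exact one_ne_zero
  refine le_antisymm (HahnSeries.order_le_of_coeff_ne_zero h1) ?_
  by_contra hlt
  have hlt' : (jT N).order < -(N : ℤ) := lt_of_not_ge hlt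
  have h0 : (jT N).coeff (jT N).order = 0 := jT_coeff_of_lt N hlt'
  rw [HahnSeries.coeff_order_eq_zero] at h0
  rw [h0] at h1
  exact h1 HahnSeries.coeff_zero

/-- The order of the inverse of a nonzero Laurent series. -/
theorem order_inv_of_ne_zero {x : LaurentSeries ℂ} (hx : x ≠ 0) : x⁻¹.order = -x.order := by
  have h := HahnSeries.order_mul hx (inv_ne_zero hx)
  rw [mul_inv_cancel₀ hx, HahnSeries.order_one] at h
  omega

end OrdAux

/-- `j = t^(-N) + …` at every cusp. -/
theorem order_cuspExp_jBar (N : ℕ) [NeZero N] (g : SL(2, ℤ)) :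
    (cuspExp N g (jBar N)).order = -(N : ℤ) := by
  rw [cuspExp_jBar]
  exact OrdAux.order_jT N

/-- Hence `1/j` has order `N`. -/
theorem order_cuspExp_jBar_inv (N : ℕ) [NeZero N] (g : SL(2, ℤ)) :
    (cuspExp N g (jBar N)⁻¹).order = (N : ℤ) := by
  have hx : cuspExp N g (jBar N) ≠ 0 := by
    intro h0
    have h1 := order_cuspExp_jBar N g
    rw [h0, HahnSeries.order_zero] at h1
    have hN : (N : ℤ) ≠ 0 := Nat.cast_ne_zero.mpr (NeZero.ne N)
    omega
  rw [map_inv₀, OrdAux.order_inv_of_ne_zero hx, order_cuspExp_jBar]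
  exact neg_neg _

/-- Nonzero constants have order `0`. -/
theorem order_cuspExp_algebraMap (N : ℕ) [NeZero N] (g : SL(2, ℤ)) (c : Qb) (hc : c ≠ 0) :
    (cuspExp N g (algebraMap Qb (FN N) c)).order = 0 := by
  -- (`HahnSeries.order_C` holds for every constant; the hypothesis `hc` is not needed.)
  have _hc := hc
  rw [cuspExp_algebraMap]
  exact HahnSeries.order_C

end Fermat.Agent.S24
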